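import Fermat.Agent.M59.KumConv.PeuAt
import Fermat.Agent.M59.S38g.Ord.Entry
import Fermat.Agent.M59.LG.Link
import Fermat.Agent.S55.Places.Basic

/-!
M59 / cells **[DICT]** (leaf 9 of the master table, Sink A) and **[TRES-DICT]** (leaf (L2) of the
ordinary machine, box [C + S38g]) (helper6; ruling #48).  Prefix `m59kc_`.

The predicate `m59mo_IsTres p ρ̄` of helper14 (`M59/S38g/Ord/Seams.lean`) carries LITERALLY the first
clause of (K3) used in `m59kc_peuAt` (`M59/KumConv/PeuAt.lean`).  So with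

  `m59kc_Peu k ρ̄ p := ¬ m59mo_IsTres p ρ̄`

both dictionaries are theorems:

* `m59kc_clause1_conj` : conjugation of the first clause of (K3) along `g ∈ G_ℚ`;
* `m59kc_not_tres_all` : `¬ m59mo_IsTres p ρ̄` ⟹ over EVERY place `A ∣ p` every `τ ∈ I_A` of type
  (K3)-clause 1 has `ρ̄ τ = 1` (`G_ℚ` is transitive on the places over `p`, `pl_exists_smul_eq`);
* `m59kc_peuDict_of Peu (h : Peu ⟹ ¬ IsTres) : m59sa_PeuDict_stmt Peu`     ([LINK] + `m59kc_peuAt`);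
* `m59kc_tresDict_of Peu (h : ¬ Peu ⟹ IsTres) : m59mo_TresDict_stmt Peu`;
* `m59kc_Peu`, `m59kc_peuDict`, `m59kc_tresDict` : the two leaves for `Peu := ¬ IsTres`;
* `m59kc_tauV_of_tres` : `m59mo_IsTres p ρ̄` ⟹ over every `P ∣ p` an element `τ_v ∈ I_P` with THE TWO
  clauses of (K3) (`m59rpk_tauV`) and `ρ̄ τ_v ≠ 1`.
-/

set_option autoImplicit false
set_option linter.unusedSectionVars false

noncomputable section

namespace Fermat.Agent.M59

open Fermat.Agent.FF Fermat.Agent.S44 Fermat.Agent.S58 Fermat.Agent.S55 Fermat.Agent.TW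
  IsLocalRing
open scoped Pointwise

local notation "Qb" => AlgebraicClosure ℚ
local notation "GQ" => (AlgebraicClosure ℚ ≃ₐ[ℚ] AlgebraicClosure ℚ)

/-- the first clause of (K3) for `τ` at the place `P`: `τ` fixes every `p`-power root of every
inertia-fixed unit of `P`. -/
def m59kc_Clause1 (p : ℕ) (P : ValuationSubring Qb) (τ : GQ) : Prop :=
  ∀ (n : ℕ) (γ : Qb), γ ∈ P → γ⁻¹ ∈ P →
    (∀ s ∈ P.inertiaSubgroupIn ℚ, s (γ ^ p ^ n) = γ ^ p ^ n) → τ γ = γ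

/-- membership in a conjugate valuation subring. -/
theorem m59kc_mem_smul_iff (g : GQ) (P : ValuationSubring Qb) (x : Qb) :
    x ∈ g • P ↔ g⁻¹ x ∈ P := by
  constructor
  · intro h
    obtain ⟨y, hy, rfl⟩ := (ValuationSubring.mem_smul_pointwise_iff_exists g x P).1 h
    have : g⁻¹ (g • y) = y := g.symm_apply_apply y
    rwa [this]
  · intro h
    refine (ValuationSubring.mem_smul_pointwise_iff_exists g x P).2 ⟨g⁻¹ x, h, ?_⟩
    exact g.apply_symm_apply x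

/-- **conjugation of the first clause of (K3).** -/
theorem m59kc_clause1_conj (p : ℕ) (P : ValuationSubring Qb) (τ : GQ)
    (h1 : m59kc_Clause1 p P τ) (g : GQ) : m59kc_Clause1 p (g • P) (g * τ * g⁻¹) := by
  intro n γ hγ hγi hfix
  have hγ' : g⁻¹ γ ∈ P := (m59kc_mem_smul_iff g P γ).1 hγ
  have hγi' : (g⁻¹ γ)⁻¹ ∈ P := by
    rw [← map_inv₀]
    exact (m59kc_mem_smul_iff g P γ⁻¹).1 hγi
  have hfix' : ∀ s ∈ P.inertiaSubgroupIn ℚ, s ((g⁻¹ γ) ^ p ^ n) = (g⁻¹ γ) ^ p ^ n := by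
    intro s hs
    have h2 := hfix (g * s * g⁻¹) (tl_inertia_conj P g s hs)
    have h3 : g (s (g⁻¹ (γ ^ p ^ n))) = γ ^ p ^ n := h2
    rw [← map_pow]
    have h4 := congrArg (g⁻¹ : GQ) h3
    rwa [show (g⁻¹ : GQ) (g (s (g⁻¹ (γ ^ p ^ n)))) = s (g⁻¹ (γ ^ p ^ n)) from
      g.symm_apply_apply _] at h4
  have h5 := h1 n (g⁻¹ γ) hγ' hγi' hfix'
  show g (τ (g⁻¹ γ)) = γ
  rw [h5]
  exact g.apply_symm_apply γ

/-- `¬ IsTres` at ONE place is `¬ IsTres` at EVERY place. -/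
theorem m59kc_not_tres_all {k : Type} [Field k] (p : ℕ) [hp : Fact p.Prime]
    (ρbar : ResidualGaloisRep k) (h : ¬ m59mo_IsTres p ρbar)
    (A : ValuationSubring Qb) (hA : A.LiesOverPrime p) (τ : GQ)
    (hτI : τ ∈ A.inertiaSubgroupIn ℚ) (hτ1 : m59kc_Clause1 p A τ) : ρbar.ρ τ = 1 := by
  unfold m59mo_IsTres at h
  push Not at h
  obtain ⟨P, hP, hall⟩ := h
  obtain ⟨g, hg⟩ := pl_exists_smul_eq hp.out hA hP
  -- `g • A = P`
  have h1 : g * τ * g⁻¹ ∈ P.inertiaSubgroupIn ℚ := hg ▸ tl_inertia_conj A g τ hτI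
  have h2 : m59kc_Clause1 p P (g * τ * g⁻¹) := hg ▸ m59kc_clause1_conj p A τ hτ1 g
  have h3 := hall (g * τ * g⁻¹) h1 h2
  rw [map_mul, map_mul] at h3
  have h4 : ρbar.ρ g * ρbar.ρ g⁻¹ = 1 := by rw [← map_mul, mul_inv_cancel, map_one]
  have h5 : ρbar.ρ g⁻¹ * ρbar.ρ g = 1 := by rw [← map_mul, inv_mul_cancel, map_one]
  calc ρbar.ρ τ = ρbar.ρ g⁻¹ * (ρbar.ρ g * ρbar.ρ τ * ρbar.ρ g⁻¹) * ρbar.ρ g := by
        rw [mul_assoc (ρbar.ρ g), ← mul_assoc (ρbar.ρ g⁻¹), h5, one_mul, mul_assoc, h5, mul_one]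
    _ = 1 := by rw [h3, mul_one, h5]

/-- **[DICT] (leaf 9) for every `Peu` which implies `¬ IsTres`.** -/
theorem m59kc_peuDict_of (Peu : m59e_PeuPred)
    (h : ∀ (k : Type) [Field k] (ρbar : ResidualGaloisRep k) (p : ℕ),
      Peu k ρbar p → ¬ m59mo_IsTres p ρbar) : m59sa_PeuDict_stmt Peu := by
  intro p _ hp35 W hΔ hss 𝒪 _ _ _ _ _ _ hp𝒪 ρ hT hPeu A hA ζ hζ
  have hp2 : p ≠ 2 := by rcases hp35 with rfl | rfl <;> norm_num
  obtain ⟨f, hinj, hf⟩ := m59lg_link p hp35 W hΔ hss 𝒪 hp𝒪 ρ hT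
  refine m59kc_peuAt p hp2 W A hA ζ hζ fun τ hτI hτ1 m => ?_
  have h1 := m59kc_not_tres_all p ρ.residual (h _ _ _ hPeu) A hA τ hτI hτ1
  apply hinj
  rw [hf, h1]
  rfl

/-- **[TRES-DICT] (leaf (L2)) for every `Peu` whose negation implies `IsTres`.** -/
theorem m59kc_tresDict_of (Peu : m59e_PeuPred)
    (h : ∀ (k : Type) [Field k] (ρbar : ResidualGaloisRep k) (p : ℕ),
      ¬ Peu k ρbar p → m59mo_IsTres p ρbar) : m59mo_TresDict_stmt Peu := by
  intro p _ _ W _ _ 𝒪 _ _ _ _ _ _ _ ρ _ _ hn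
  exact h _ _ _ hn

/-- **the Galois-side predicate "peu ramifiée at `p`"** := not très ramifiée in the native sense. -/
def m59kc_Peu : m59e_PeuPred := fun _ _ ρbar p => ¬ m59mo_IsTres p ρbar

/-- **leaf 9 [DICT]** for `m59kc_Peu`. -/
theorem m59kc_peuDict : m59sa_PeuDict_stmt m59kc_Peu :=
  m59kc_peuDict_of m59kc_Peu fun _ _ _ _ h => h

/-- **leaf (L2) [TRES-DICT]** for `m59kc_Peu`. -/
theorem m59kc_tresDict : m59mo_TresDict_stmt m59kc_Peu :=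
  m59kc_tresDict_of m59kc_Peu fun _ _ _ _ h => not_not.1 h

/-- **très ramifiée ⟹ an element of type `τ_v` (BOTH clauses of (K3)) acts non-trivially.** -/
theorem m59kc_tauV_of_tres {k : Type} [Field k] (p : ℕ) [hp : Fact p.Prime] (hp2 : p ≠ 2)
    (ρbar : ResidualGaloisRep k) (h : m59mo_IsTres p ρbar)
    (P : ValuationSubring Qb) (hP : P.LiesOverPrime p) :
    ∃ τ : GQ, τ ∈ P.inertiaSubgroupIn ℚ ∧
      (∀ (N : ℕ) (γ : Qb), γ ∈ P → γ⁻¹ ∈ P →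
        (∀ s ∈ P.inertiaSubgroupIn ℚ, s (γ ^ p ^ N) = γ ^ p ^ N) → τ γ = γ) ∧
      (∀ π : Qb, π ^ p = (p : Qb) → τ π ≠ π) ∧ ρbar.ρ τ ≠ 1 := by
  obtain ⟨τ, hτI, hτ1, hτρ⟩ := h P hP
  obtain ⟨τ₀, hτ₀I, hτ₀1, hτ₀2⟩ := m59rpk_tauV p hp2 P hP
  by_cases h0 : ρbar.ρ τ₀ = 1
  · by_cases hmove : ∀ π : Qb, π ^ p = (p : Qb) → τ π ≠ π
    · exact ⟨τ, hτI, hτ1, hmove, hτρ⟩
    · push Not at hmove
      obtain ⟨π₀, hπ₀, hτπ₀⟩ := hmove
      -- `τ` fixes ALL the `p`-th roots of `p` (it fixes `μ_p`)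
      have hp0 : (p : Qb) ≠ 0 := Nat.cast_ne_zero.2 hp.out.ne_zero
      have hπ₀0 : π₀ ≠ 0 := by
        rintro rfl
        rw [zero_pow hp.out.ne_zero] at hπ₀
        exact hp0 hπ₀.symm
      have hfixall : ∀ π : Qb, π ^ p = (p : Qb) → τ π = π := by
        intro π hπ
        -- `π / π₀` is a `p`-th root of unity, a unit of `P` whose `p`-th power is `1`
        have hu : (π / π₀) ^ p = 1 := by rw [div_pow, hπ, hπ₀, div_self hp0]
        have hu' : (π / π₀)⁻¹ ^ p = 1 := by rw [inv_pow, hu, inv_one]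
        have hmem : π / π₀ ∈ P := by
          refine m59rpk_mem_of_pow_mem P hp.out.ne_zero ?_
          rw [hu]; exact P.one_mem
        have hmemi : (π / π₀)⁻¹ ∈ P := by
          refine m59rpk_mem_of_pow_mem P hp.out.ne_zero ?_
          rw [hu']; exact P.one_mem
        have h3 := hτ1 1 (π / π₀) hmem hmemi (fun s _ => by rw [pow_one, hu, map_one])
        have h4 : π = π / π₀ * π₀ := by field_simp
        rw [h4, map_mul, h3, hτπ₀]
      refine ⟨τ * τ₀, Subgroup.mul_mem _ hτI hτ₀I, ?_, ?_, ?_⟩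
      · intro N γ hγ hγi hfix
        show τ (τ₀ γ) = γ
        rw [hτ₀1 N γ hγ hγi hfix, hτ1 N γ hγ hγi hfix]
      · intro π hπ hcon
        have h3 : τ (τ₀ π) = π := hcon
        have h4 : (τ₀ π) ^ p = (p : Qb) := by rw [← map_pow, hπ, map_natCast]
        have h5 : τ (τ₀ π) = τ₀ π := hfixall _ h4
        exact hτ₀2 π hπ (h5.symm.trans h3)
      · rw [map_mul, h0, mul_one]
        exact hτρ
  · exact ⟨τ₀, hτ₀I, hτ₀1, hτ₀2, h0⟩

end Fermat.Agent.M59
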