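import Fermat.Agent.M59.KumConv.Dict
import Fermat.Agent.M59.Rp.Seams

/-!
M59 / cells **[DICT]** (leaf 9, Sink A) and **[TRES-DICT]** (leaf (L2), ordinary machine) FOR THE
PREDICATE `m59rp_Peu` OF [R_p-norm] (helper13, `M59/Rp/Seams.lean`) (helper6; ruling #48).
Prefix `m59kc_`.

* `m59kc_radical_coc` : Hilbert 90 (`m59rpk_h90`) for a finite-level cocycle `σ ↦ ζ ^ a σ` on `I_A`;
* **`m59kc_rpPeuAt_of_tauV`** : if ONE element `τ ∈ I_A` with the two clauses of (K3) has `ρ̄ τ = 1`,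
  then `m59rp_PeuAt k ρ̄ p A` (NO hypothesis on `ρ̄`, NO hypothesis on `k`).  Contrapositive
  `m59kc_tauV_ne_of_not_rpPeuAt` : `¬ m59rp_PeuAt k ρ̄ p A` ⟹ EVERY such `τ` (e.g. `E.tv` of
  `m59rp_Elts`) has `ρ̄ τ ≠ 1` — the Kummer input of (PEU-II);
* `m59kc_rpPeu_of_not_tres` : `¬ m59mo_IsTres p ρ̄ → m59rp_Peu k ρ̄ p`;
* **`m59kc_tresDict_rp : m59mo_TresDict_stmt m59rp_Peu`**   (leaf (L2));
* **`m59kc_peuDict_rp : m59sa_PeuDict_stmt m59rp_Peu`**     (leaf 9).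
-/

set_option autoImplicit false
set_option linter.unusedSectionVars false
set_option linter.style.haveILetI false

noncomputable section

namespace Fermat.Agent.M59

open Fermat.Agent.FF Fermat.Agent.S44 Fermat.Agent.S58 Fermat.Agent.S55 Fermat.Agent.TW
  IsLocalRing IntermediateField

local notation "Qb" => AlgebraicClosure ℚ
local notation "GQ" => (AlgebraicClosure ℚ ≃ₐ[ℚ] AlgebraicClosure ℚ)

section Coc

variable {p : ℕ} [hp : Fact p.Prime] (A : ValuationSubring Qb) {ζ : Qb}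

/-- **Hilbert 90 for a finite-level cocycle `σ ↦ ζ ^ a σ` on `I_A`.** -/
theorem m59kc_radical_coc (hζ : IsPrimitiveRoot ζ p) (a : GQ → ℕ)
    (hcoc : ∀ s ∈ A.inertiaSubgroupIn ℚ, ∀ t ∈ A.inertiaSubgroupIn ℚ,
      ζ ^ a (s * t) = ζ ^ a s * s (ζ ^ a t))
    (F : IntermediateField ℚ Qb) [FiniteDimensional ℚ F]
    (hF : ∀ s ∈ A.inertiaSubgroupIn ℚ, ∀ u ∈ A.inertiaSubgroupIn ℚ, u ∈ F.fixingSubgroup →
      ζ ^ a (s * u) = ζ ^ a s) :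
    ∃ β : Qb, β ≠ 0 ∧ ∀ σ ∈ A.inertiaSubgroupIn ℚ, σ β = ζ ^ a σ * β := by
  have hζ0 : ζ ≠ 0 := hζ.ne_zero hp.out.ne_zero
  obtain ⟨β, hβ0, hβ⟩ := m59rpk_h90 A (fun s => (ζ ^ a s)⁻¹)
    (fun s _ => inv_ne_zero (pow_ne_zero _ hζ0))
    (fun s hs t ht => by
      show (ζ ^ a (s * t))⁻¹ = (ζ ^ a s)⁻¹ * s ((ζ ^ a t)⁻¹)
      rw [hcoc s hs t ht, mul_inv, map_inv₀])
    F
    (fun s hs u hu huF => by
      show (ζ ^ a (s * u))⁻¹ = (ζ ^ a s)⁻¹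
      rw [hF s hs u hu huF])
  refine ⟨β, hβ0, fun σ hσ => ?_⟩
  have h1 : (ζ ^ a σ)⁻¹ * σ β = β := hβ σ hσ
  have h2 : (ζ ^ a σ) ≠ 0 := pow_ne_zero _ hζ0
  calc σ β = ζ ^ a σ * ((ζ ^ a σ)⁻¹ * σ β) := by rw [← mul_assoc, mul_inv_cancel₀ h2, one_mul]
    _ = ζ ^ a σ * β := by rw [h1]

/-- `ζ ^ (y₁ + j • y₂).val = ζ ^ y₁.val * (ζ ^ j) ^ y₂.val` for `y₁ y₂ : ZMod p`. -/
theorem m59kc_pow_val_add (hζ : IsPrimitiveRoot ζ p) (y₁ y₂ : ZMod p) (j : ℕ) :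
    ζ ^ (y₁ + j • y₂).val = ζ ^ y₁.val * (ζ ^ j) ^ y₂.val := by
  haveI : NeZero p := ⟨hp.out.ne_zero⟩
  rw [← pow_mul, ← pow_add]
  refine m59kc_pow_eq_of_modEq hζ ?_
  have h1 : y₁ + j • y₂ = ((y₁.val + j * y₂.val : ℕ) : ZMod p) := by
    push_cast
    rw [ZMod.natCast_zmod_val, ZMod.natCast_zmod_val, nsmul_eq_mul]
  rw [h1, ZMod.val_natCast]
  exact Nat.mod_modEq _ _

end Coc

section PeuAt

variable {k : Type} [Field k]

/-- **one element of type `τ_v` acting trivially on `ρ̄` ⟹ `ρ̄` is peu ramifiée at `A`** (in the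
sense `m59rp_PeuAt` of [R_p-norm]). -/
theorem m59kc_rpPeuAt_of_tauV (p : ℕ) [hp : Fact p.Prime] (ρb : ResidualGaloisRep k)
    (A : ValuationSubring Qb) (hA : A.LiesOverPrime p)
    (τ : GQ) (hτI : τ ∈ A.inertiaSubgroupIn ℚ)
    (hτ1 : ∀ (N : ℕ) (γ : Qb), γ ∈ A → γ⁻¹ ∈ A →
      (∀ s ∈ A.inertiaSubgroupIn ℚ, s (γ ^ p ^ N) = γ ^ p ^ N) → τ γ = γ)
    (hτ2 : ∀ x : Qb, x ^ p = (p : Qb) → τ x ≠ x)
    (hτρ : ρb.ρ τ = 1) : m59rp_PeuAt k ρb p A := by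
  intro ζ hζ x v c hx heig hext l
  haveI : NeZero p := ⟨hp.out.ne_zero⟩
  have hinj : ∀ {y₁ y₂ : k}, y₁ • x = y₂ • x → y₁ = y₂ := fun {y₁ y₂} h =>
    smul_left_injective k hx h
  have hk : ∀ σ : GQ, ∃ j : ℕ, σ ζ = ζ ^ j := by
    intro σ
    have hpow : (σ ζ) ^ p = 1 := by rw [← map_pow, hζ.pow_eq_one, map_one]
    obtain ⟨j, -, hj⟩ := hζ.eq_pow_of_pow_eq_one hpow
    exact ⟨j, hj.symm⟩
  -- the cocycle relation of `c`
  have hc : ∀ s ∈ A.inertiaSubgroupIn ℚ, ∀ t ∈ A.inertiaSubgroupIn ℚ, ∀ j : ℕ, s ζ = ζ ^ j →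
      c (s * t) = c s + j • c t := by
    intro s hs t ht j hj
    apply hinj
    have h1 : ρb.ρ (s * t) v = v + c (s * t) • x := hext _ (mul_mem hs ht)
    have h2 : ρb.ρ (s * t) v = v + (c s + j • c t) • x := by
      rw [map_mul, Module.End.mul_apply, hext t ht, map_add, map_smul, hext s hs,
        heig s hs j hj, add_assoc, add_smul, smul_smul, nsmul_eq_mul, mul_comm]
    rw [h1] at h2
    exact add_left_cancel h2
  -- the finite level of `ρ̄`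
  obtain ⟨F, hFfin, hF⟩ := ρb.factorsThroughFiniteLevel
  haveI := hFfin
  have hcF : ∀ s ∈ A.inertiaSubgroupIn ℚ, ∀ u ∈ A.inertiaSubgroupIn ℚ, u ∈ F.fixingSubgroup →
      c (s * u) = c s := by
    intro s hs u hu huF
    apply hinj
    have hu1 : ρb.ρ u = 1 := hF u fun y hy => by
      have := (IntermediateField.mem_fixingSubgroup_iff F u).1 huF y hy
      exact this
    have h1 : ρb.ρ (s * u) v = v + c (s * u) • x := hext _ (mul_mem hs hu)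
    rw [map_mul, hu1, mul_one, hext s hs] at h1
    exact (add_left_cancel h1).symm
  -- the radical
  obtain ⟨β, hβ0, hβ⟩ := m59kc_radical_coc A hζ (fun σ => (l (c σ)).val)
    (fun s hs t ht => by
      obtain ⟨j, hj⟩ := hk s
      show ζ ^ (l (c (s * t))).val = ζ ^ (l (c s)).val * s (ζ ^ (l (c t)).val)
      rw [hc s hs t ht j hj, map_add, map_nsmul, m59kc_pow_val_add hζ, map_pow, hj])
    F
    (fun s hs u hu huF => by
      show ζ ^ (l (c (s * u))).val = ζ ^ (l (c s)).val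
      rw [hcF s hs u hu huF])
  -- `c τ = 0`
  have hcτ : c τ = 0 := by
    apply hinj
    have h1 : ρb.ρ τ v = v + c τ • x := hext τ hτI
    rw [hτρ, Module.End.one_apply] at h1
    rw [zero_smul]
    exact (add_eq_left.1 h1.symm)
  refine m59kc_unit_of_tau A hA hζ (fun σ => (l (c σ)).val) hβ0 hβ τ hτI hτ1 hτ2 ?_
  show p ∣ (l (c τ)).val
  rw [hcτ, map_zero, ZMod.val_zero]
  exact dvd_zero p

/-- **the contrapositive** (the Kummer input of (PEU-II)): `ρ̄` not peu ramifiée at `A` ⟹ EVERY element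
of type `τ_v` at `A` acts non-trivially on `ρ̄`. -/
theorem m59kc_tauV_ne_of_not_rpPeuAt (p : ℕ) [hp : Fact p.Prime] (ρb : ResidualGaloisRep k)
    (A : ValuationSubring Qb) (hA : A.LiesOverPrime p) (hn : ¬ m59rp_PeuAt k ρb p A)
    (τ : GQ) (hτI : τ ∈ A.inertiaSubgroupIn ℚ)
    (hτ1 : ∀ (N : ℕ) (γ : Qb), γ ∈ A → γ⁻¹ ∈ A →
      (∀ s ∈ A.inertiaSubgroupIn ℚ, s (γ ^ p ^ N) = γ ^ p ^ N) → τ γ = γ)
    (hτ2 : ∀ x : Qb, x ^ p = (p : Qb) → τ x ≠ x) : ρb.ρ τ ≠ 1 :=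
  fun h => hn (m59kc_rpPeuAt_of_tauV p ρb A hA τ hτI hτ1 hτ2 h)

/-- not très ramifiée (native form) ⟹ peu ramifiée (form of [R_p-norm]). -/
theorem m59kc_rpPeu_of_not_tres (p : ℕ) [hp : Fact p.Prime] (hp2 : p ≠ 2)
    (ρb : ResidualGaloisRep k) (h : ¬ m59mo_IsTres p ρb) : m59rp_Peu k ρb p := by
  intro A hA
  obtain ⟨τ, hτI, hτ1, hτ2⟩ := m59rpk_tauV p hp2 A hA
  exact m59kc_rpPeuAt_of_tauV p ρb A hA τ hτI hτ1 hτ2
    (m59kc_not_tres_all p ρb h A hA τ hτI hτ1)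

end PeuAt

/-- **leaf (L2) [TRES-DICT] for `m59rp_Peu`.** -/
theorem m59kc_tresDict_rp : m59mo_TresDict_stmt m59rp_Peu := by
  intro p _ hp35 W _ _ 𝒪 _ _ _ _ _ _ _ ρ _ _ hn
  have hp2 : p ≠ 2 := by rcases hp35 with rfl | rfl <;> norm_num
  by_contra hcon
  exact hn (m59kc_rpPeu_of_not_tres p hp2 ρ.residual hcon)

/-- **leaf 9 [DICT] for `m59rp_Peu`.** -/
theorem m59kc_peuDict_rp : m59sa_PeuDict_stmt m59rp_Peu := by
  intro p hpF hp35 W hΔ hss 𝒪 _ _ _ _ _ _ hp𝒪 ρ hT hPeu A hA ζ hζ x v a hB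
  haveI : NeZero p := ⟨hpF.out.ne_zero⟩
  obtain ⟨f, hinj, hf⟩ := m59lg_link p hp35 W hΔ hss 𝒪 hp𝒪 ρ hT
  haveI : CharP (ResidueField 𝒪) p := m59m_charP_residue p hp𝒪
  letI : Algebra (ZMod p) (ResidueField 𝒪) := ZMod.algebra _ p
  -- an `𝔽_p`-linear retraction of `𝔽_p → k`
  obtain ⟨l, hl⟩ := LinearMap.exists_leftInverse_of_injective
    (Algebra.linearMap (ZMod p) (ResidueField 𝒪))
    (LinearMap.ker_eq_bot.2 (algebraMap (ZMod p) (ResidueField 𝒪)).injective)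
  have hl' : ∀ n : ℕ, l ((n : ResidueField 𝒪)) = (n : ZMod p) := by
    intro n
    have h1 := LinearMap.congr_fun hl (n : ZMod p)
    rw [LinearMap.comp_apply, Algebra.linearMap_apply, map_natCast] at h1
    exact h1
  have hfx : f x ≠ 0 := by
    intro h0
    exact hB.ne (hinj (h0.trans (map_zero f).symm))
  obtain ⟨β, hβ0, hβA, hβA', hβ⟩ := hPeu A hA ζ hζ (f x) (f v)
    (fun σ => ((a σ : ℕ) : ResidueField 𝒪)) hfx
    (fun σ hσ j hj => by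
      rw [← hf, hB.eig σ hσ j hj, map_nsmul, Nat.cast_smul_eq_nsmul])
    (fun σ hσ => by
      rw [← hf, hB.ext σ hσ, map_add, map_nsmul, Nat.cast_smul_eq_nsmul])
    l.toAddMonoidHom
  refine ⟨β, hβ0, hβA, hβA', fun σ hσ => ?_⟩
  rw [hβ σ hσ]
  congr 1
  refine m59kc_pow_eq_of_modEq hζ ?_
  show (l ((a σ : ℕ) : ResidueField 𝒪)).val ≡ a σ [MOD p]
  rw [hl', ZMod.val_natCast]
  exact Nat.mod_modEq _ _

end Fermat.Agent.M59
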