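import Fermat.Agent.M59.Rp.KumMain
import Fermat.Agent.M59.Rp.KumConj

/-!
M59 / cell **[KUM-CONV]** (helper6; ruling #48).  Prefix `m59kc_`.

THE CONVERSE OF helper24's `m59rpk_peu_tau`: a Kummer cocycle on the inertia group `I_A` (`A ∣ p`,
`p` odd) which VANISHES at `τ_v` (an element of `I_A` with the two clauses of (K3), `m59rpk_tauV`)
has a UNIT radical.

* `m59kc_radical`     : Hilbert 90 (`m59rpk_h90`): an ordinary-shaped pair `(x, v)` in a `G_ℚ`-module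
  killed by `p` (`σ x = k x` when `σ ζ = ζ ^ k`, `σ v = v + a(σ) x` on `I_A`, `v` fixed by an open
  subgroup) has a radical `β ≠ 0`, `σ β = ζ ^ a(σ) β` on `I_A`;
* `m59kc_unit_of_tau` : a radical + `p ∣ a(τ_v)` ⟹ a unit radical;
* `m59kc_unit_of_fixed` : the two together: if `τ_v • v = v` there is a unit radical.
-/

set_option autoImplicit false
set_option linter.unusedSectionVars false
set_option linter.style.haveILetI false

noncomputable section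

namespace Fermat.Agent.M59

open Fermat.Agent.FF IntermediateField

local notation "Qb" => AlgebraicClosure ℚ
local notation "GQ" => (AlgebraicClosure ℚ ≃ₐ[ℚ] AlgebraicClosure ℚ)

section Radical

variable {p : ℕ} [hp : Fact p.Prime] {M : Type} [AddCommGroup M] [DistribMulAction GQ M]
  (A : ValuationSubring Qb) {ζ : Qb}

/-- `ζ ^ m` only depends on `m` modulo `p` -/
theorem m59kc_pow_eq_of_modEq (hζ : IsPrimitiveRoot ζ p) {m n : ℕ} (h : m ≡ n [MOD p]) :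
    ζ ^ m = ζ ^ n := by
  rw [← pow_mod_orderOf ζ m, ← pow_mod_orderOf ζ n, ← hζ.eq_orderOf]
  exact congrArg _ h

/-- `ζ ^ m` only depends on `m • x` for `x` of exact order `p` -/
theorem m59kc_pow_eq_of_smul_eq (hζ : IsPrimitiveRoot ζ p) {x : M} (hx : x ≠ 0)
    (hpx : p • x = 0) {m n : ℕ} (h : m • x = n • x) : ζ ^ m = ζ ^ n := by
  have hord : addOrderOf x = p := addOrderOf_eq_prime hpx hx
  have h1 : m ≡ n [MOD p] := by
    rw [← hord]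
    exact nsmul_eq_nsmul_iff_modEq.1 h
  exact m59kc_pow_eq_of_modEq hζ h1

/-- **Hilbert 90 for an ordinary-shaped pair.** -/
theorem m59kc_radical (hζ : IsPrimitiveRoot ζ p) (x v : M) (a : GQ → ℕ) (hx : x ≠ 0)
    (hpx : p • x = 0)
    (heig : ∀ σ ∈ A.inertiaSubgroupIn ℚ, ∀ k : ℕ, σ ζ = ζ ^ k → σ • x = k • x)
    (hext : ∀ σ ∈ A.inertiaSubgroupIn ℚ, σ • v = v + a σ • x)
    (F : IntermediateField ℚ Qb) [FiniteDimensional ℚ F]
    (hF : ∀ σ ∈ F.fixingSubgroup, σ • v = v) :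
    ∃ β : Qb, β ≠ 0 ∧ ∀ σ ∈ A.inertiaSubgroupIn ℚ, σ β = ζ ^ a σ * β := by
  have hζ0 : ζ ≠ 0 := hζ.ne_zero hp.out.ne_zero
  -- the cocycle `c σ = (ζ ^ a σ)⁻¹`
  have hk : ∀ σ : GQ, ∃ k : ℕ, σ ζ = ζ ^ k := by
    intro σ
    have hpow : (σ ζ) ^ p = 1 := by rw [← map_pow, hζ.pow_eq_one, map_one]
    obtain ⟨k, -, hk⟩ := hζ.eq_pow_of_pow_eq_one hpow
    exact ⟨k, hk.symm⟩
  have hcoc : ∀ s ∈ A.inertiaSubgroupIn ℚ, ∀ t ∈ A.inertiaSubgroupIn ℚ,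
      ζ ^ a (s * t) = ζ ^ a s * s (ζ ^ a t) := by
    intro s hs t ht
    obtain ⟨k, hk⟩ := hk s
    rw [map_pow, hk, ← pow_mul, ← pow_add]
    refine m59kc_pow_eq_of_smul_eq hζ hx hpx ?_
    have h1 : (s * t) • v = v + a (s * t) • x := hext _ (mul_mem hs ht)
    have h2 : (s * t) • v = v + (a s + k * a t) • x := by
      rw [mul_smul, hext t ht, smul_add, hext s hs, smul_comm s (a t) x, heig s hs k hk,
        add_assoc, add_smul, mul_comm k, mul_smul]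
    rw [h1] at h2
    exact add_left_cancel h2
  obtain ⟨β, hβ0, hβ⟩ := m59rpk_h90 A (fun s => (ζ ^ a s)⁻¹)
    (fun s _ => inv_ne_zero (pow_ne_zero _ hζ0))
    (fun s hs t ht => by
      show (ζ ^ a (s * t))⁻¹ = (ζ ^ a s)⁻¹ * s ((ζ ^ a t)⁻¹)
      rw [hcoc s hs t ht, mul_inv, map_inv₀])
    F
    (fun s hs u hu huF => by
      show (ζ ^ a (s * u))⁻¹ = (ζ ^ a s)⁻¹
      congr 1
      refine m59kc_pow_eq_of_smul_eq hζ hx hpx ?_
      have h1 : (s * u) • v = v + a (s * u) • x := hext _ (mul_mem hs hu)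
      rw [mul_smul, hF u huF, hext s hs] at h1
      exact (add_left_cancel h1).symm)
  refine ⟨β, hβ0, fun σ hσ => ?_⟩
  have h1 : (ζ ^ a σ)⁻¹ * σ β = β := hβ σ hσ
  have h2 : (ζ ^ a σ) ≠ 0 := pow_ne_zero _ hζ0
  calc σ β = ζ ^ a σ * ((ζ ^ a σ)⁻¹ * σ β) := by rw [← mul_assoc, mul_inv_cancel₀ h2, one_mul]
    _ = ζ ^ a σ * β := by rw [h1]

end Radical

section Unit

variable {p : ℕ} [hp : Fact p.Prime] (A : ValuationSubring Qb) {ζ : Qb}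

/-- **a radical whose cocycle vanishes at `τ_v` can be made a unit.** -/
theorem m59kc_unit_of_tau (hA : A.LiesOverPrime p) (hζ : IsPrimitiveRoot ζ p) (a : GQ → ℕ)
    {β : Qb} (hβ0 : β ≠ 0) (hβ : ∀ σ ∈ A.inertiaSubgroupIn ℚ, σ β = ζ ^ a σ * β)
    (τ : GQ) (hτI : τ ∈ A.inertiaSubgroupIn ℚ)
    (hτ1 : ∀ (N : ℕ) (γ : Qb), γ ∈ A → γ⁻¹ ∈ A →
      (∀ s ∈ A.inertiaSubgroupIn ℚ, s (γ ^ p ^ N) = γ ^ p ^ N) → τ γ = γ)
    (hτ2 : ∀ x : Qb, x ^ p = (p : Qb) → τ x ≠ x)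
    (hτa : p ∣ a τ) :
    ∃ β' : Qb, β' ≠ 0 ∧ β' ∈ A ∧ β'⁻¹ ∈ A ∧
      ∀ σ ∈ A.inertiaSubgroupIn ℚ, σ β' = ζ ^ a σ * β' := by
  have hpp : p.Prime := hp.out
  have hpQ : (p : Qb) ≠ 0 := Nat.cast_ne_zero.2 hpp.ne_zero
  -- `y = β ^ p` lies in the inertia field
  set y := β ^ p with hy
  have hy0 : y ≠ 0 := pow_ne_zero _ hβ0
  have hyfix : ∀ s ∈ A.inertiaSubgroupIn ℚ, s y = y := by
    intro s hs
    have h1 : (ζ ^ a s) ^ p = 1 := by rw [← pow_mul, mul_comm, pow_mul, hζ.pow_eq_one, one_pow]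
    rw [hy, map_pow, hβ s hs, mul_pow, h1, one_mul]
  have hyL : y ∈ ffi_L A := by
    rw [ffi_mem_L]
    exact hyfix
  obtain ⟨n, hn1, hn2⟩ := ffi_lvi_unit p A hA hyL hy0
  -- a `p`-th root of `p`
  obtain ⟨π, hπ⟩ := IsAlgClosed.exists_pow_nat_eq (p : Qb) hpp.pos
  have hπ0 : π ≠ 0 := by
    rintro rfl
    rw [zero_pow hpp.ne_zero] at hπ
    exact hpQ hπ.symm
  -- `γ = β π ^ n` is a `p`-th root of a unit of the inertia field
  set γ := β * π ^ n with hγ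
  have hγp : γ ^ p = y * (p : Qb) ^ n := by
    rw [hγ, mul_pow, ← hy, ← zpow_natCast (π ^ n) p, ← zpow_mul, mul_comm n, zpow_mul,
      zpow_natCast, hπ]
  have hγ0 : γ ≠ 0 := mul_ne_zero hβ0 (zpow_ne_zero _ hπ0)
  have hγA : γ ∈ A := m59rpk_mem_of_pow_mem A hpp.ne_zero (by rw [hγp]; exact hn1)
  have hγA' : γ⁻¹ ∈ A :=
    m59rpk_mem_of_pow_mem A hpp.ne_zero (by rw [inv_pow, hγp]; exact hn2)
  have hτγ : τ γ = γ := by
    refine hτ1 1 γ hγA hγA' (fun s hs => ?_)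
    rw [pow_one, hγp, map_mul, hyfix s hs, map_zpow₀, map_natCast]
  -- `τ` fixes `β`
  have hτβ : τ β = β := by
    rw [hβ τ hτI]
    obtain ⟨c, hc⟩ := hτa
    rw [hc, pow_mul, hζ.pow_eq_one, one_pow, one_mul]
  -- hence `τ` fixes `π ^ n`
  have hτπn : τ (π ^ n) = π ^ n := by
    have h1 : τ γ = τ β * τ (π ^ n) := by rw [hγ, map_mul]
    rw [hτγ, hτβ, hγ] at h1
    exact (mul_left_cancel₀ hβ0 h1).symm
  -- `τ π = ζ' π` with `ζ'` a primitive `p`-th root of unity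
  set ζ' := τ π / π with hζ'
  have hζ'p : ζ' ^ p = 1 := by
    rw [hζ', div_pow, ← map_pow, hπ, map_natCast, div_self hpQ]
  have hζ'1 : ζ' ≠ 1 := by
    intro h1
    apply hτ2 π hπ
    rw [hζ', div_eq_one_iff_eq hπ0] at h1
    exact h1
  have hζ'prim : IsPrimitiveRoot ζ' p := by
    have hord : orderOf ζ' ∣ p := orderOf_dvd_of_pow_eq_one hζ'p
    rcases (Nat.dvd_prime hpp).1 hord with h | h
    · exact absurd (orderOf_eq_one_iff.1 h) hζ'1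
    · rw [← h]
      exact IsPrimitiveRoot.orderOf ζ'
  have hτπ : τ π = ζ' * π := by
    rw [hζ', div_mul_cancel₀ _ hπ0]
  have hζ'n : ζ' ^ n = 1 := by
    have h1 : τ (π ^ n) = ζ' ^ n * π ^ n := by
      rw [map_zpow₀, hτπ, mul_zpow]
    rw [hτπn] at h1
    have h2 : π ^ n ≠ 0 := zpow_ne_zero _ hπ0
    exact (mul_right_cancel₀ h2 (by rw [one_mul]; exact h1)).symm
  obtain ⟨j, hj⟩ := (hζ'prim.zpow_eq_one_iff_dvd n).1 hζ'n
  -- the unit radical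
  refine ⟨β * (p : Qb) ^ j, mul_ne_zero hβ0 (zpow_ne_zero _ hpQ), ?_, ?_, ?_⟩
  · refine m59rpk_mem_of_pow_mem A hpp.ne_zero ?_
    have : (β * (p : Qb) ^ j) ^ p = y * (p : Qb) ^ n := by
      rw [mul_pow, ← hy, ← zpow_natCast ((p : Qb) ^ j) p, ← zpow_mul, hj, mul_comm j]
    rw [this]
    exact hn1
  · refine m59rpk_mem_of_pow_mem A hpp.ne_zero ?_
    have : ((β * (p : Qb) ^ j)⁻¹) ^ p = (y * (p : Qb) ^ n)⁻¹ := by
      rw [inv_pow, mul_pow, ← hy, ← zpow_natCast ((p : Qb) ^ j) p, ← zpow_mul, hj, mul_comm j]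
    rw [this]
    exact hn2
  · intro σ hσ
    rw [map_mul, hβ σ hσ, map_zpow₀, map_natCast, mul_assoc]

end Unit

section Fixed

variable {p : ℕ} [hp : Fact p.Prime] {M : Type} [AddCommGroup M] [DistribMulAction GQ M]
  (A : ValuationSubring Qb) {ζ : Qb}

/-- **[KUM-CONV]**: an ordinary-shaped pair `(x, v)` on `I_A` with `τ_v • v = v` has a unit
radical.  (Contrapositive: no unit radical ⟹ `τ_v` moves `v`: the extension is très ramifiée.) -/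
theorem m59kc_unit_of_fixed (hA : A.LiesOverPrime p) (hζ : IsPrimitiveRoot ζ p) (x v : M)
    (a : GQ → ℕ) (hx : x ≠ 0) (hpx : p • x = 0)
    (heig : ∀ σ ∈ A.inertiaSubgroupIn ℚ, ∀ k : ℕ, σ ζ = ζ ^ k → σ • x = k • x)
    (hext : ∀ σ ∈ A.inertiaSubgroupIn ℚ, σ • v = v + a σ • x)
    (F : IntermediateField ℚ Qb) [FiniteDimensional ℚ F]
    (hF : ∀ σ ∈ F.fixingSubgroup, σ • v = v)
    (τ : GQ) (hτI : τ ∈ A.inertiaSubgroupIn ℚ)
    (hτ1 : ∀ (N : ℕ) (γ : Qb), γ ∈ A → γ⁻¹ ∈ A →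
      (∀ s ∈ A.inertiaSubgroupIn ℚ, s (γ ^ p ^ N) = γ ^ p ^ N) → τ γ = γ)
    (hτ2 : ∀ x : Qb, x ^ p = (p : Qb) → τ x ≠ x)
    (hτv : τ • v = v) :
    ∃ β : Qb, β ≠ 0 ∧ β ∈ A ∧ β⁻¹ ∈ A ∧
      ∀ σ ∈ A.inertiaSubgroupIn ℚ, σ β = ζ ^ a σ * β := by
  obtain ⟨β, hβ0, hβ⟩ := m59kc_radical A hζ x v a hx hpx heig hext F hF
  refine m59kc_unit_of_tau A hA hζ a hβ0 hβ τ hτI hτ1 hτ2 ?_
  have h1 := hext τ hτI
  rw [hτv] at h1
  have h2 : a τ • x = 0 := by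
    have h3 : v + 0 = v + a τ • x := by rw [add_zero]; exact h1
    exact (add_left_cancel h3).symm
  have hord : addOrderOf x = p := addOrderOf_eq_prime hpx hx
  rw [← hord]
  exact addOrderOf_dvd_of_nsmul_eq_zero h2

end Fixed

end Fermat.Agent.M59
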