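import Fermat.Agent.M59.KumConv.Main
import Fermat.Agent.M59.SinkA.Seams

/-!
M59 / cell **[KUM-CONV]** (helper6; ruling #48), part 2: the `W[p]` form.  Prefix `m59kc_`.

* `m59kc_peuAt` : if every `τ ∈ I_A` which fixes all `p`-power roots of the inertia-fixed units of `A`
  (clause 1 of (K3)) acts trivially on `W[p]`, then `m59sa_PeuAt W p A ζ`;
* `m59kc_tres_of_not_peuAt` : the contrapositive: `¬ m59sa_PeuAt W p A ζ` ⟹ some such `τ` moves a
  point of `W[p]` (`W[p]` is TRES RAMIFIE at `A`).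
-/

set_option autoImplicit false
set_option linter.unusedSectionVars false

noncomputable section

namespace Fermat.Agent.M59

open Fermat.Agent.FF Fermat.Agent.S44 Fermat.Agent.S58

/-- **`W[p]` is peu ramifié at `A` as soon as the elements of type `τ_v` act trivially on it.** -/
theorem m59kc_peuAt (p : ℕ) [hp : Fact p.Prime] (hp2 : p ≠ 2) (W : WeierstrassCurve ℤ)
    (A : ValuationSubring s44_Qb) (hA : A.LiesOverPrime p) (ζ : s44_Qb)
    (hζ : IsPrimitiveRoot ζ p)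
    (h : ∀ τ ∈ A.inertiaSubgroupIn ℚ,
      (∀ (N : ℕ) (γ : s44_Qb), γ ∈ A → γ⁻¹ ∈ A →
        (∀ s ∈ A.inertiaSubgroupIn ℚ, s (γ ^ p ^ N) = γ ^ p ^ N) → τ γ = γ) →
      ∀ m : m59sa_Tors W p, τ • m = m) :
    m59sa_PeuAt W p A ζ := by
  intro x v a hB
  obtain ⟨τ, hτI, hτ1, hτ2⟩ := m59rpk_tauV p hp2 A hA
  obtain ⟨F, hFfin, hF⟩ := s58t_fixed W (v : s58_E W)
  have := hFfin
  have hpx : p • x = 0 := by
    apply Subtype.ext
    have h1 := (Submodule.mem_torsionBy_iff _ _).1 x.2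
    rw [Submodule.coe_smul_of_tower, Submodule.coe_zero, ← natCast_zsmul]
    exact h1
  exact m59kc_unit_of_fixed (M := m59sa_Tors W p) A hA hζ x v a hB.ne hpx hB.eig hB.ext F
    (fun σ hσ => Subtype.ext (hF σ (fun y hy => hσ ⟨y, hy⟩))) τ hτI hτ1 hτ2 (h τ hτI hτ1 v)

/-- **the contrapositive**: `W[p]` not peu ramifié at `A` ⟹ an element of type `τ_v` moves a point
of `W[p]`. -/
theorem m59kc_tres_of_not_peuAt (p : ℕ) [hp : Fact p.Prime] (hp2 : p ≠ 2)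
    (W : WeierstrassCurve ℤ) (A : ValuationSubring s44_Qb) (hA : A.LiesOverPrime p) (ζ : s44_Qb)
    (hζ : IsPrimitiveRoot ζ p) (hn : ¬ m59sa_PeuAt W p A ζ) :
    ∃ τ ∈ A.inertiaSubgroupIn ℚ,
      (∀ (N : ℕ) (γ : s44_Qb), γ ∈ A → γ⁻¹ ∈ A →
        (∀ s ∈ A.inertiaSubgroupIn ℚ, s (γ ^ p ^ N) = γ ^ p ^ N) → τ γ = γ) ∧
      ∃ m : m59sa_Tors W p, τ • m ≠ m := by
  by_contra hcon
  push Not at hcon
  exact hn (m59kc_peuAt p hp2 W A hA ζ hζ fun τ hτI hτ1 m => hcon τ hτI hτ1 m)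

end Fermat.Agent.M59
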